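/-
Project BAD, block ETAINST (sub-architect helper210).  SKELETON: all the nodes, with `sorry`.
Every node is stated in the namespace `Fermat.Agent.BAD.Model.EtaInst.Skel`; the task owner proves the
SAME statement in the namespace `Fermat.Agent.BAD.Model.EtaInst`, in the file given in the docstring
(directory `Fermat/Agent/BAD/Model/EtaInst/`).
-/
import Fermat.Agent.BAD.Model.EtaInst.Defs
import Fermat.Agent.S36.Mod.HalfInst.Unif
import Fermat.Agent.S36.Desc.Model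
import Fermat.Agent.S37.JInt
import Fermat.Agent.Lib.EtaFN.Final
import Fermat.Agent.Lib.EtaUnit.Main
import Fermat.Agent.Lib.EtaUnit.G4.Main
import Fermat.Agent.Lib.EtaUnit.G9.Main
import Fermat.Agent.S16.EisP

set_option autoImplicit false

noncomputable section

namespace Fermat.Agent.BAD.Model.EtaInst.Skel

open ModularCurve Fermat.Agent.S24 Fermat.Agent.S18 Fermat.Agent.S18.Vert Fermat.Agent.S36.Mod
  Fermat.Agent.S36.BP Fermat.Agent.S18.Descent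
open Fermat.Agent.Lib.Hauptmodul (toL dilZ etaProdInv)
open scoped MatrixGroups

/-! ## Part S : formal series -/

section Series

variable {R R' : Type*} [CommRing R] [CommRing R']

/-- S1 `Series.lean` -/
theorem mul_invZ {P : PowerSeries ℤ} (h : PowerSeries.constantCoeff P = 1) : P * invZ P = 1 := by
  sorry

/-- S1 `Series.lean` -/
theorem constantCoeff_invZ {P : PowerSeries ℤ} (h : PowerSeries.constantCoeff P = 1) :
    PowerSeries.constantCoeff (invZ P) = 1 := by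
  sorry

/-- S1 `Series.lean` -/
theorem coeffMap_toL (φ : R →+* R') (P : PowerSeries ℤ) : coeffMap φ (toL R P) = toL R' P := by
  sorry

/-- S1 `Series.lean` -/
theorem qExpand_toL (d : ℕ) [NeZero d] (P : PowerSeries ℤ) :
    qExpand R d (toL R P) = toL R (dilZ d P) := by
  sorry

/-- S1 `Series.lean` -/
theorem toL_ne_zero [Nontrivial R] {P : PowerSeries ℤ} (h : PowerSeries.constantCoeff P = 1) :
    toL R P ≠ 0 := by
  sorry

/-- S1 `Series.lean`.  Frobenius: `P(t^q) = P(t)^q` in characteristic `q`. -/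
theorem frob_toL (k : Type*) [Field k] (q : ℕ) [NeZero q] (hq : q.Prime) [CharP k q]
    (P : PowerSeries ℤ) : qExpand k q (toL k P) = toL k P ^ q := by
  sorry

variable {L : Type*} [Field L] (A : ValuationSubring L)

/-- S2 `Twist.lean`.  `P(ζ t) ≡ P(t)` modulo `ζ - 1`. -/
theorem exists_twist_toL (ζ : Lˣ) (hζ : (ζ : L) - 1 ∈ A.nonunits) (P : PowerSeries ℤ) :
    ∃ U : LaurentSeries A, inc A U = S24.B.twist ζ (toL L P) ∧
      red A U = toL (IsLocalRing.ResidueField A) P := by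
  sorry

/-- S2 `Twist.lean`.  `f(ζ t) - f(t) = (ζ - 1) U`, `U ≡ θ f`, for `f = t⁻¹ T`
(`cyc_exists_quot`: `(ζ^n - 1)/(ζ - 1) ≡ n`). -/
theorem exists_twist_sub (q : ℕ) (hq : q.Prime) (hqA : (q : L) ∈ A.nonunits) (ζ : Lˣ)
    (hζ : IsPrimitiveRoot ζ q) (hmem : (ζ : L) - 1 ∈ A) (T : PowerSeries ℤ) :
    ∃ U : LaurentSeries A,
      S24.B.twist ζ (HahnSeries.single (-1 : ℤ) 1 * toL L T) - HahnSeries.single (-1 : ℤ) 1 * toL L T
        = inc A (HahnSeries.C ⟨(ζ : L) - 1, hmem⟩ * U) ∧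
      red A U = HahnSeries.single (-1 : ℤ) 1 *
        toL (IsLocalRing.ResidueField A) (PowerSeries.X * PowerSeries.derivative ℤ T - T) := by
  sorry

/-- S3 `Wilson.lean`.  `(ζ - 1)^(q-1) = q u`, `u ≡ -1` (`q = ∏ (1 - ζ^i)`, `(1 - ζ^i)/(1 - ζ) ≡ i`,
Wilson's theorem; `q` odd). -/
theorem cyc_exists_unit_wilson {q : ℕ} {ζ : L} (hζ : IsPrimitiveRoot ζ q) (hq : q.Prime)
    (hq2 : q ≠ 2) (hqA : (q : L) ∈ A.nonunits) :
    ∃ u : L, u ∈ A ∧ u + 1 ∈ A.nonunits ∧ (ζ - 1) ^ (q - 1) = (q : L) * u := by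
  sorry

end Series

/-! ## Part V : valuations -/

section Val

variable {K : Type*} [Field K] {A : ValuationSubring K} [IsDiscreteValuationRing A]
  {F : Type*} [Field F] (φ : IntEmb A F)

/-- V1 `Val.lean` -/
theorem val_lt_one_of_red_eq_zero {f : F} {P : LaurentSeries A} (hP : red A P = 0)
    (h : φ.toHom f = inc A P) : φ.val.valuation f < 1 := by
  sorry

/-- V1 `Val.lean` -/
theorem val_sub_lt_one_of_red_eq {f g : F} {P Q : LaurentSeries A} (hPQ : red A P = red A Q)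
    (hf : φ.toHom f = inc A P) (hg : φ.toHom g = inc A Q) : φ.val.valuation (f - g) < 1 := by
  sorry

/-- V1 `Val.lean` -/
theorem valuation_comap_lt_one {F' : Type*} [Field F'] (V : ValuationSubring F) (ψ : F' →+* F)
    (y : F') : (V.comap ψ).valuation y < 1 ↔ V.valuation (ψ y) < 1 := by
  sorry

/-- V1 `Val.lean` -/
theorem valuation_comap_eq_one {F' : Type*} [Field F'] (V : ValuationSubring F) (ψ : F' →+* F)
    (y : F') : (V.comap ψ).valuation y = 1 ↔ V.valuation (ψ y) = 1 := by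
  sorry

/-- V1 `Val.lean` -/
theorem isUnif_of_pow (V : ValuationSubring F) {ϖ z : F} {n : ℕ} (hn : 0 < n) (hU : IsUnif V ϖ)
    (h : V.valuation z ^ n = V.valuation ϖ ^ n) : IsUnif V z := by
  sorry

end Val

/-! ## Part I : integrality -/

section Int

variable {B B' : Type*} [CommRing B] [CommRing B']

/-- I1 `IntOver.lean` -/
theorem IntOver.map (φ : B →+* B') {a y : B} (h : IntOver a y) : IntOver (φ a) (φ y) := by
  sorry

/-- I1 `IntOver.lean` -/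
theorem IntOver.of_map (φ : B →+* B') (hφ : Function.Injective φ) {a y : B}
    (h : IntOver (φ a) (φ y)) : IntOver a y := by
  sorry

/-- I1 `IntOver.lean` -/
theorem IntOver.trans {a b y : B} (h1 : IntOver a b) (h2 : IntOver b y) : IntOver a y := by
  sorry

/-- I1 `IntOver.lean` -/
theorem IntOver.mem {F : Type*} [Field F] {R : Subring F} (hcl : ∀ y : F, IsIntegral R y → y ∈ R)
    {a y : F} (ha : a ∈ R) (h : IntOver a y) : y ∈ R := by
  sorry

/-- I1 `IntOver.lean` -/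
theorem IntOver.mul {a y y' : B} (h : IntOver a y) (h' : IntOver a y') : IntOver a (y * y') := by
  sorry

/-- I2 `IntJ.lean`.  `j(t^d)` is integral over `ℤ[j]`, over any field `L ⊆ ℚ̄` (`S37.jInt`,
`IntOver.of_map` for `baseChangeMap`). -/
theorem intOver_JK (L : Type*) [Field L] [Algebra ℚ L] [Algebra L Kbar] (N d : ℕ) [NeZero N]
    [NeZero d] (hd : d ∣ N) : IntOver (jj L N) (JK L N d hd) := by
  sorry

end Int

variable {K K' : Type*} [Field K] [Field K'] [Algebra ℚ K] [Algebra ℚ K'] [Algebra K Kbar]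
  [Algebra K' Kbar] (S : Setup K K')

/-! ## Part C : generator chases -/

/-- C1 `Chase.lean` (as `w2_al1` in `S36/Mod/HalfInst/Compose.lean`). -/
theorem w1_be0 (f : S.F0) : S.w1 (S.be0 f) = S.al0 f := by
  sorry

/-- C1 `Chase.lean` -/
theorem e11_al1_al0 (f : S.F0) :
    S.e11.toHom (S.al1 (S.al0 f)) = coeffMap S.ι (f : LaurentSeries K) := by
  sorry

/-- C1 `Chase.lean` -/
theorem e11_be1_be0 (f : S.F0) :
    S.e11.toHom (S.be1 (S.be0 f)) = S24.B.twist S.ζ (coeffMap S.ι (f : LaurentSeries K)) := by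
  sorry

/-- C1 `Chase.lean` -/
theorem al1_jj : S.al1 (jj K (S.N0 * S.q)) = jj K (S.N0 * S.q * S.q) := by
  sorry

/-- C1 `Chase.lean` -/
theorem al0_jj : S.al0 (jj K S.N0) = jj K (S.N0 * S.q) := by
  sorry

/-- C1 `Chase.lean` -/
theorem intOver_be1_jj : IntOver (jj K (S.N0 * S.q * S.q)) (S.be1 (jj K (S.N0 * S.q))) := by
  sorry

/-- C1 `Chase.lean` -/
theorem intOver_be0_jj : IntOver (jj K (S.N0 * S.q)) (S.be0 (jj K S.N0)) := by
  sorry

/-! ## Part Y : the indicator functions -/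

section Y

variable {S} {Gz : PowerSeries ℤ} {ε : ℤ} {x : S.F1}

/-- Y0 `YBasic.lean` -/
theorem Yf_prod (D : UnitData S Gz ε x) :
    Yf S x 0 * Yf S x 1 * Yf S x 2 = ((S.q : ℕ) : S.F2) := by
  sorry

/-- Y0 `YBasic.lean`.  (`w2_al1`, `w2_be1`, `D.al`.) -/
theorem w2_Yf (D : UnitData S Gz ε x) :
    S.w2 (Yf S x 0) = ((ε : ℤ) : S.F2) * Yf S x 2 ∧ S.w2 (Yf S x 1) = Yf S x 1 ∧
      S.w2 (Yf S x 2) = ((ε : ℤ) : S.F2) * Yf S x 0 := by
  sorry

/-- Y1 `Y20.lean`.  Expansions at `∞`: `Y2 = G(t)/G(t^q)`, `Y0 = q G(t^(q q))/G(t^q)`,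
`Y1 = G(t^q)^2/(G(t) G(t^(q q)))`; Frobenius. -/
theorem Yf_V20 (D : UnitData S Gz ε x) :
    S.V20.valuation (Yf S x 0) < 1 ∧ S.V20.valuation (Yf S x 1) = 1 ∧
      S.V20.valuation (Yf S x 2) = 1 ∧
      S.V20.valuation (Yf S x 1 - 1 * Yf S x 2 ^ (S.q - 1)) < 1 := by
  sorry

/-- Y2 `Y02.lean`.  From `Yf_V20`, `w2_Yf`, `V02 = V20.comap w2`. -/
theorem Yf_V02 (D : UnitData S Gz ε x) :
    S.V02.valuation (Yf S x 2) < 1 ∧ S.V02.valuation (Yf S x 1) = 1 ∧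
      S.V02.valuation (Yf S x 0) = 1 ∧
      S.V02.valuation (Yf S x 1 - ((ε : ℤ) : S.F2) ^ (S.q - 1) * Yf S x 0 ^ (S.q - 1)) < 1 := by
  sorry

/-- Y3 `Y11.lean`.  Expansions at the middle cusp (`e11_al1`, `e11_be1`, `D.al`):
`Y2 = G(t)/G(t^q)`, `Y0 = ε G(ζ t)/G(t^q)`, `Y1 = ε q G(t^q)^2/(G(t) G(ζ t))`. -/
theorem Yf_V11 (D : UnitData S Gz ε x) :
    S.V11.valuation (Yf S x 1) < 1 ∧ S.V11.valuation (Yf S x 0) = 1 ∧
      S.V11.valuation (Yf S x 2) = 1 ∧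
      S.V11.valuation (Yf S x 0 - ((ε : ℤ) : S.F2) * Yf S x 2) < 1 := by
  sorry

/-- Y4 `YInt.lean` -/
theorem intOver_Yf (D : UnitData S Gz ε x) :
    IntOver (jj K (S.N0 * S.q * S.q)) (Yf S x 0) ∧ IntOver (jj K (S.N0 * S.q * S.q)) (Yf S x 2) ∧
      IntOver (jj K (S.N0 * S.q * S.q)) (((S.q : ℕ) : S.F2) * Yf S x 1) := by
  sorry

end Y

/-! ## Part Z : the uniformiser of the middle component -/

section Z

variable {S} {Gz Tz : PowerSeries ℤ} {ε : ℤ} {x : S.F1} {t : S.F0}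

/-- Z1 `ZExp.lean`.  `z = t(ζ X)/t(X) - 1 = (ζ - 1) U`, `U ≡ θ t / t = - G²`. -/
theorem exists_e11_zf (H : HauptData S Gz Tz t) :
    ∃ U : LaurentSeries S.B',
      S.e11.toHom (zf S t) = inc S.B' (HahnSeries.C ⟨(S.ζ : K') - 1, S.Unif_zeta_sub_one_mem⟩ * U) ∧
      red S.B' U = - toL S.kk Gz ^ 2 := by
  sorry

/-- Z2 `ZCong.lean`.  `(z^(q-1)/q) Y0 Y2 ≡ - ε` on the middle component. -/
theorem zf_cong (hq2 : S.q ≠ 2) (D : UnitData S Gz ε x) (H : HauptData S Gz Tz t) :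
    S.V11.valuation (zf S t ^ (S.q - 1) / ((S.q : ℕ) : S.F2) * (Yf S x 0 * Yf S x 2) -
      (- ((ε : ℤ) : S.F2))) < 1 := by
  sorry

/-- Z3 `ZInt.lean` -/
theorem zf_mem (H : HauptData S Gz Tz t) (R : Subring S.F2)
    (hcl : ∀ y : S.F2, IsIntegral R y → y ∈ R) (hB : ∀ a ∈ S.B, algebraMap K S.F2 a ∈ R)
    (hj : jj K (S.N0 * S.q * S.q) ∈ R) : zf S t ∈ R := by
  sorry

end Z

/-! ## Part J : Jacobi's identity -/

section J

open Fermat.Agent.Lib.EtaFN (etaQuot D4 r4)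
open CongruenceSubgroup

/-- J1 `LogDeriv.lean`.  The logarithmic derivative of the Euler product. -/
theorem X_mul_derivative_etaProd :
    PowerSeries.X * PowerSeries.derivative ℤ etaProd = - (Fermat.Agent.S16.sigZ 1 * etaProd) := by
  sorry

/-- J2 `LogDerivT.lean` -/
theorem X_mul_derivative_T4z :
    PowerSeries.X * PowerSeries.derivative ℤ T4z = - (8 * Fermat.Agent.S16.deltaZ 4 * T4z) := by
  sorry

/-- J3 `G4Form.lean`.  `G₄²` is a modular form of weight two on `Γ₀(4)`. -/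
theorem exists_G4sq : ∃ f : ModularForm (Gamma0 4) 2,
    ∀ τ : UpperHalfPlane, f τ = etaQuot Finset.univ D4 r4 τ ^ 2 := by
  sorry

/-- J4 `G4Exp.lean` -/
theorem qExpansion_G4sq (f : ModularForm (Gamma0 4) 2)
    (hf : ∀ τ : UpperHalfPlane, f τ = etaQuot Finset.univ D4 r4 τ ^ 2) :
    UpperHalfPlane.qExpansion 1 f = (G4z ^ 2).map (Int.castRingHom ℂ) := by
  sorry

/-- J5 `G4Coeff.lean` -/
theorem coeff_G4z : PowerSeries.coeff 0 G4z = 1 ∧ PowerSeries.coeff 1 G4z = 4 := by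
  sorry

/-- J6 `Jacobi.lean`.  Jacobi's four squares theorem (Sturm bound `2 * 6 / 12 = 1`). -/
theorem G4z_sq : G4z ^ 2 = 1 + 8 * Fermat.Agent.S16.deltaZ 4 := by
  sorry

end J

/-! ## Part M : the modular input -/

section M

open Fermat.Agent.Lib.EtaUnit (IsW1 unitF)
open Fermat.Agent.Lib

/-- M1 `SerId.lean` -/
theorem etaSer_D4 : EtaFN.etaSer Finset.univ EtaFN.D4 EtaFN.r4 = toL Kbar G4z := by
  sorry

/-- M1 `SerId.lean` -/
theorem etaSer_D9 : EtaFN.etaSer Finset.univ EtaFN.D9 EtaFN.r9 = toL Kbar G9z := by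
  sorry

/-- M1 `SerId.lean` -/
theorem etaSer_Dt4 : EtaFN.etaSer Finset.univ EtaFN.Dt4 EtaFN.rt4 = toL Kbar T4z := by
  sorry

/-- M1 `SerId.lean` -/
theorem etaSer_ratio {κ : Type*} [Fintype κ] (D₀ : κ → ℕ) (r₀ : κ → ℤ) (hD₀ : ∀ i, 0 < D₀ i)
    (P : PowerSeries ℤ) (hP : PowerSeries.constantCoeff P = 1)
    (h : EtaFN.etaSer Finset.univ D₀ r₀ = toL Kbar P) (q : ℕ) [NeZero q] :
    EtaFN.etaSer Finset.univ (EtaFN.ratioD D₀ 1 q) (EtaFN.ratioR r₀) =
      toL Kbar P * qExpand Kbar q (toL Kbar (invZ P)) := by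
  sorry

/-- M2 `GsEq.lean`.  (uniqueness of the expansion of `G₄`.) -/
theorem G4s_eq : EtaUnit.G4s = G4z := by
  sorry

/-- M2 `GsEq.lean` -/
theorem G9s_eq : EtaUnit.G9s = G9z := by
  sorry

/-- M3 `ALBar.lean`.  The Atkin-Lehner involution on the modular unit, over `ℚ̄`
(`S36/Mod/EmbBar/AL.lean`: `expAt`, `phiM`, `expAt_JF`; `EtaUnit.texpL_smul_unitF` with `A = 1`,
`B = 0`, `D = q`, `c' = N0`, `e = N0`, `ξ = 1`). -/
theorem al_unitF {a : ℕ} {χ : ℤ → ℤ} {G : UpperHalfPlane → ℂ} {Gs : PowerSeries ℤ}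
    (h : IsW1 a χ G Gs) (N0 q : ℕ) [NeZero N0] [NeZero q] (hcop : N0.Coprime q) (ha : a ∣ N0)
    (hm : Nat.Coprime q a) (hN : a * q ∣ N0 * q)
    (w : FN (N0 * q) →ₐ[Kbar] FN (N0 * q))
    (hw : ∀ (d e e' : ℕ) [NeZero d] [NeZero e] [NeZero e'], d ∣ N0 → e * e' = q →
        ∀ (h1 : d * e ∣ N0 * q) (h2 : d * e' ∣ N0 * q),
          w (JF (N0 * q) (d * e) h1) = JF (N0 * q) (d * e') h2) :
    w (unitF h q (N0 * q) hm hN) * unitF h q (N0 * q) hm hN =
      ((χ q : ℤ) : FN (N0 * q)) * ((q : ℕ) : FN (N0 * q)) := by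
  sorry

/-- M4 `W1Compat.lean`.  `w_q` over `K` and over `ℚ̄` are compatible. -/
theorem baseChange_w1 (w : FN (S.N0 * S.q) →ₐ[Kbar] FN (S.N0 * S.q))
    (hw : ∀ (d e e' : ℕ) [NeZero d] [NeZero e] [NeZero e'], d ∣ S.N0 → e * e' = S.q →
        ∀ (h1 : d * e ∣ S.N0 * S.q) (h2 : d * e' ∣ S.N0 * S.q),
          w (JF (S.N0 * S.q) (d * e) h1) = JF (S.N0 * S.q) (d * e') h2) (f : S.F1) :
    baseChangeMap (modularFunctionFieldFull (S.N0 * S.q)) (algebraMap K Kbar) (S.w1 f) =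
      w (baseChangeMap (modularFunctionFieldFull (S.N0 * S.q)) (algebraMap K Kbar) f) := by
  sorry

/-- M5 `UnitDesc.lean`.  Descent of the unit from `ℚ̄` to `K`. -/
theorem exists_unitData_of_isW1 {a : ℕ} {χ : ℤ → ℤ} {G : UpperHalfPlane → ℂ} {Gs : PowerSeries ℤ}
    (h : IsW1 a χ G Gs) (ha : a ∣ S.N0) (hm : Nat.Coprime S.q a) (hN : a * S.q ∣ S.N0 * S.q)
    (hint : IntOver (jF (S.N0 * S.q)) (unitF h S.q (S.N0 * S.q) hm hN))
    (hint' : IntOver (jF (S.N0 * S.q))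
      (((S.q : ℕ) : FN (S.N0 * S.q)) * (unitF h S.q (S.N0 * S.q) hm hN)⁻¹)) :
    ∃ x : S.F1, UnitData S Gs (χ S.q) x := by
  sorry

/-- M6 `UnitInt.lean`.  (`EtaFN.exists_unit4` with `E = 1`, `E' = q`; `G4s_eq`, `etaSer_ratio`.) -/
theorem intOver_unitF4 (N q : ℕ) [NeZero N] [NeZero q] (hm : Nat.Coprime q 4) (hN : 4 * q ∣ N) :
    IntOver (jF N) (unitF EtaUnit.isW1_G4 q N hm hN) ∧
      IntOver (jF N) (((q : ℕ) : FN N) * (unitF EtaUnit.isW1_G4 q N hm hN)⁻¹) := by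
  sorry

/-- M6 `UnitInt.lean` -/
theorem intOver_unitF9 (N q : ℕ) [NeZero N] [NeZero q] (hm : Nat.Coprime q 9) (hN : 9 * q ∣ N) :
    IntOver (jF N) (unitF EtaUnit.isW1_G9 q N hm hN) ∧
      IntOver (jF N) (((q : ℕ) : FN N) * (unitF EtaUnit.isW1_G9 q N hm hN)⁻¹) := by
  sorry

/-- M7 `Haupt.lean`.  (`EtaFN.exists_t4`, descent, `etaSer_Dt4`; `m = 256`.) -/
theorem exists_hauptData (h4 : 4 ∣ S.N0) (hq2 : S.q ≠ 2)
    (hder : PowerSeries.X * PowerSeries.derivative ℤ T4z - T4z = - (G4z ^ 2 * T4z)) :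
    ∃ t : S.F0, HauptData S G4z T4z t := by
  sorry

end M

end Fermat.Agent.BAD.Model.EtaInst.Skel

end
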